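import Mathlib

/-!
# S58, leaf [AS-lite]: an involution of an algebraically closed field inverts odd roots of unity

`C` an algebraically closed field with `2 ≠ 0`, `c : C ≃+* C` an involution (`c (c x) = x`) which
is not the identity.  Elementary Artin–Schreier:

* `apply_I` : `c i = -i` for every `i` with `i ^ 2 = -1`;
* `exists_sq_eq_add_sq` : a sum of two squares of fixed elements is the square of a fixed element
  (`exists_sq_eq_sum_sq` : the same for finite sums);
* `not_fixed_sq_neg_one` : `-1` is not the square of a fixed element;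
* **`apply_of_pow_eq_one_of_odd`** : `ζ ^ m = 1`, `m` odd `⇒ c ζ = ζ⁻¹`;
* `apply_of_pow_eq_one_of_odd_algEquiv` : the same for `c : AlgebraicClosure ℚ ≃ₐ[ℚ] AlgebraicClosure ℚ`
  with `c * c = 1`, `c ≠ 1` (the shape of `ResidualGaloisRep.IsOdd`).
-/

set_option autoImplicit false

namespace Fermat.Agent.S58.ArtinSchreierLite

section Field

variable {C : Type*} [Field C] [IsAlgClosed C] (c : C ≃+* C)

omit [IsAlgClosed C] in
/-- `x * c x` is fixed by the involution. -/
theorem apply_mul_self (hc2 : ∀ x, c (c x) = x) (x : C) : c (x * c x) = x * c x := by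
  rw [map_mul, hc2, mul_comm]

/-- **`c i = -i`.** -/
theorem apply_I (hc2 : ∀ x, c (c x) = x) (hc1 : ∃ x, c x ≠ x) (h2 : (2 : C) ≠ 0)
    {i : C} (hi : i ^ 2 = -1) : c i = -i := by
  have h1 : (c i) ^ 2 = -1 := by rw [← map_pow, hi, map_neg, map_one]
  have h3 : (c i - i) * (c i + i) = 0 := by linear_combination h1 - hi
  rcases mul_eq_zero.1 h3 with h | h
  · exfalso
    have hci : c i = i := sub_eq_zero.1 h
    obtain ⟨x, hx⟩ := hc1
    set α := x - c x with hα
    have hα0 : α ≠ 0 := sub_ne_zero.2 (Ne.symm hx)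
    have hcα : c α = -α := by rw [hα, map_sub, hc2]; ring
    obtain ⟨β, hβ⟩ := IsAlgClosed.exists_pow_nat_eq α (n := 2) (by norm_num)
    set N := β * c β with hNdef
    have hN : c N = N := apply_mul_self c hc2 β
    have hN2 : N ^ 2 = -α ^ 2 := by
      have : N ^ 2 = β ^ 2 * c (β ^ 2) := by rw [hNdef, map_pow]; ring
      rw [this, hβ, hcα]; ring
    have h4 : (N - i * α) * (N + i * α) = 0 := by linear_combination hN2 - α ^ 2 * hi
    have hi0 : i ≠ 0 := by
      rintro rfl
      norm_num at hi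
    have key : ∀ ε : C, N = ε * (i * α) → c ε = ε → False := by
      intro ε hε hcε
      have h5 := congrArg c hε
      rw [hN, map_mul, map_mul, hcε, hci, hcα] at h5
      have h6 : 2 * (ε * (i * α)) = 0 := by
        have : ε * (i * α) = ε * (i * -α) := by rw [← hε, h5]
        linear_combination this
      have h7 : ε * (i * α) = 0 := (mul_eq_zero.1 h6).resolve_left h2
      rw [← hε] at h7
      rw [h7] at hN2
      have : α ^ 2 = 0 := by linear_combination hN2
      exact hα0 (pow_eq_zero_iff (by norm_num) |>.1 this)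
    rcases mul_eq_zero.1 h4 with h5 | h5
    · exact key 1 (by linear_combination h5) (map_one c)
    · exact key (-1) (by linear_combination h5) (by rw [map_neg, map_one])
  · exact eq_neg_of_add_eq_zero_left h

/-- A sum of two squares of fixed elements is the square of a fixed element. -/
theorem exists_sq_eq_add_sq (hc2 : ∀ x, c (c x) = x) (hc1 : ∃ x, c x ≠ x) (h2 : (2 : C) ≠ 0)
    {a b : C} (ha : c a = a) (hb : c b = b) : ∃ s : C, c s = s ∧ s ^ 2 = a ^ 2 + b ^ 2 := by
  obtain ⟨i, hi⟩ := IsAlgClosed.exists_pow_nat_eq (-1 : C) (n := 2) (by norm_num)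
  have hci := apply_I c hc2 hc1 h2 hi
  obtain ⟨γ, hγ⟩ := IsAlgClosed.exists_pow_nat_eq (a + b * i) (n := 2) (by norm_num)
  refine ⟨γ * c γ, apply_mul_self c hc2 γ, ?_⟩
  have : (γ * c γ) ^ 2 = γ ^ 2 * c (γ ^ 2) := by rw [map_pow]; ring
  rw [this, hγ, map_add, map_mul, ha, hb, hci]
  linear_combination -b ^ 2 * hi

/-- A finite sum of squares of fixed elements is the square of a fixed element. -/
theorem exists_sq_eq_sum_sq (hc2 : ∀ x, c (c x) = x) (hc1 : ∃ x, c x ≠ x) (h2 : (2 : C) ≠ 0)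
    (f : ℕ → C) (hf : ∀ j, c (f j) = f j) (n : ℕ) :
    ∃ s : C, c s = s ∧ s ^ 2 = ∑ j ∈ Finset.range n, f j ^ 2 := by
  induction n with
  | zero => exact ⟨0, map_zero c, by simp⟩
  | succ n ih =>
    obtain ⟨s, hs, hs2⟩ := ih
    obtain ⟨s', hs', hs2'⟩ := exists_sq_eq_add_sq c hc2 hc1 h2 hs (hf n)
    exact ⟨s', hs', by rw [hs2', hs2, Finset.sum_range_succ]⟩

/-- `-1` is not the square of a fixed element. -/
theorem not_fixed_sq_neg_one (hc2 : ∀ x, c (c x) = x) (hc1 : ∃ x, c x ≠ x) (h2 : (2 : C) ≠ 0)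
    {w : C} (hw : c w = w) : w ^ 2 ≠ -1 := by
  intro h
  have h1 := apply_I c hc2 hc1 h2 h
  rw [hw] at h1
  have h3 : 2 * w = 0 := by linear_combination h1
  have hw0 : w = 0 := (mul_eq_zero.1 h3).resolve_left h2
  rw [hw0] at h
  norm_num at h

/-- **An involution `≠ id` of an algebraically closed field inverts the roots of unity of odd
order.** -/
theorem apply_of_pow_eq_one_of_odd (hc2 : ∀ x, c (c x) = x) (hc1 : ∃ x, c x ≠ x)
    (h2 : (2 : C) ≠ 0) {ζ : C} {m : ℕ} (hζ : ζ ^ m = 1) (hm : Odd m) : c ζ = ζ⁻¹ := by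
  obtain ⟨k, rfl⟩ := hm
  have hζ0 : ζ ≠ 0 := by
    rintro rfl
    rw [zero_pow (by omega)] at hζ
    exact zero_ne_one hζ
  set u := ζ * c ζ with hu
  have hcu : c u = u := apply_mul_self c hc2 ζ
  have hum : u ^ (2 * k + 1) = 1 := by
    rw [hu, mul_pow, ← map_pow, hζ, map_one, mul_one]
  set v := u ^ (k + 1) with hv
  have hcv : c v = v := by rw [hv, map_pow, hcu]
  have hv2 : v ^ 2 = u := by
    rw [hv, ← pow_mul]
    have : (k + 1) * 2 = (2 * k + 1) + 1 := by ring
    rw [this, pow_succ, hum, one_mul]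
  suffices hu1 : u = 1 by
    rw [hu] at hu1
    exact eq_inv_of_mul_eq_one_right hu1
  by_contra hne
  have hgeom : ∑ j ∈ Finset.range (2 * k + 1), u ^ j = 0 := by
    have h := geom_sum_mul u (2 * k + 1)
    rw [hum, sub_self] at h
    exact (mul_eq_zero.1 h).resolve_right (sub_ne_zero.2 hne)
  rw [Finset.sum_range_succ', pow_zero] at hgeom
  have hsq : ∀ j, u ^ (j + 1) = (v ^ (j + 1)) ^ 2 := by
    intro j
    rw [← pow_mul, mul_comm, pow_mul, hv2]
  simp_rw [hsq] at hgeom
  obtain ⟨s, hs, hs2⟩ := exists_sq_eq_sum_sq c hc2 hc1 h2 (fun j => v ^ (j + 1))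
    (fun j => by rw [map_pow, hcv]) (2 * k)
  rw [← hs2] at hgeom
  exact not_fixed_sq_neg_one c hc2 hc1 h2 hs (by linear_combination hgeom)

end Field

/-- The shape of `ResidualGaloisRep.IsOdd`: every involution `c ≠ 1` of `ℚ̄` inverts the roots of
unity of odd order. -/
theorem apply_of_pow_eq_one_of_odd_algEquiv
    (c : AlgebraicClosure ℚ ≃ₐ[ℚ] AlgebraicClosure ℚ) (hc2 : c * c = 1) (hc1 : c ≠ 1)
    {ζ : AlgebraicClosure ℚ} {m : ℕ} (hζ : ζ ^ m = 1) (hm : Odd m) : c ζ = ζ⁻¹ := by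
  have h1 : ∀ x, (c : AlgebraicClosure ℚ ≃+* AlgebraicClosure ℚ) ((c : AlgebraicClosure ℚ ≃+*
      AlgebraicClosure ℚ) x) = x := by
    intro x
    have := congrArg (fun f : AlgebraicClosure ℚ ≃ₐ[ℚ] AlgebraicClosure ℚ => f x) hc2
    simpa [AlgEquiv.mul_apply] using this
  have h2 : ∃ x, (c : AlgebraicClosure ℚ ≃+* AlgebraicClosure ℚ) x ≠ x := by
    by_contra hall
    simp only [not_exists, not_not] at hall
    exact hc1 (AlgEquiv.ext fun x => by simpa using hall x)
  exact apply_of_pow_eq_one_of_odd (c : AlgebraicClosure ℚ ≃+* AlgebraicClosure ℚ) h1 h2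
    two_ne_zero hζ hm

end Fermat.Agent.S58.ArtinSchreierLite
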