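/-
S58 — block [F9] (TOP glue), helper7.

`W.IsModularModelOfLevel W.conductorLevel` from the block outputs:
* [F1] `Form/MinimalLevel.exists_newform_of_isModularModelOfLevel` (helper6),
* [F6]/[F7] level matching (helper26), taken here as ONE hypothesis `hmatch` in the frozen
  consumer shape (I-F67),
* [F8] `Stab.isModularModelOfLevel_of_dvd` (helper20).

Also: the two trivial consequences `N ≠ 0`, `W.Δ ≠ 0` of the hypotheses `hN3`, `hbad` of the
frozen statement S58.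
-/
import Mathlib
import Fermat.Prelude.Def_FLTPrelim_ModularRep
import Fermat.Prelude.Def_WeierstrassCurve_ConductorLevel
import Fermat.Prelude.Def_CuspForm_Newforms
import Fermat.Agent.S58.Form.MinimalLevel
import Fermat.Agent.S58.Stab.Stab

set_option autoImplicit false

open WeierstrassCurve CuspForm ModularFormClass CongruenceSubgroup

namespace Fermat.Agent.S58.Top

/-- A cube-free level (in the sense of the frozen S58: no prime cube divides it) is nonzero. -/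
theorem level_ne_zero {N : ℕ} (hN3 : ∀ q : ℕ, q.Prime → ¬ q ^ 3 ∣ N) : N ≠ 0 := by
  rintro rfl
  exact hN3 2 Nat.prime_two (dvd_zero _)

/-- If every prime dividing `W.Δ` divides the nonzero level `N`, then `W.Δ ≠ 0`. -/
theorem delta_ne_zero (W : WeierstrassCurve ℤ) {N : ℕ} (hN0 : N ≠ 0)
    (hbad : ∀ ℓ : ℕ, ℓ.Prime → (ℓ : ℤ) ∣ W.Δ → ℓ ∣ N) : W.Δ ≠ 0 := by
  intro h0
  obtain ⟨ℓ, hℓN, hℓ⟩ := Nat.exists_infinite_primes (N + 1)
  have hdvd : ℓ ∣ N := hbad ℓ hℓ (by rw [h0]; exact dvd_zero _)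
  have := Nat.le_of_dvd (Nat.pos_of_ne_zero hN0) hdvd
  omega

/-- A prime that is good for `W` does not divide the conductor level. -/
theorem not_dvd_conductorLevel_of_good (W : WeierstrassCurve ℤ) (hΔ : W.Δ ≠ 0) {ℓ : ℕ}
    (hℓ : ℓ.Prime) (hgood : W.IsGoodPrimeFor ℓ) : ¬ ℓ ∣ W.conductorLevel := fun h =>
  hgood ((W.prime_dvd_conductorLevel_iff hΔ hℓ).1 h)

/-- **[F9]** The top-level glue of S58: level matching (I-F67) for the newform of minimal level
gives modularity of conductor level. -/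
theorem isModularModelOfLevel_conductorLevel (W : WeierstrassCurve ℤ) {N : ℕ} (hN0 : N ≠ 0)
    (hN : W.IsModularModelOfLevel N)
    (hmatch : ∀ (M : ℕ) [NeZero M], M ∣ N → ∀ g : CuspForm (Gamma0 M) 2, g.IsNewform →
      (∀ ℓ : ℕ, ℓ.Prime → W.IsGoodPrimeFor ℓ → ¬ ℓ ∣ N → qCoeff g ℓ = (W.apOfModel ℓ : ℂ)) →
        M ∣ W.conductorLevel ∧
          ∀ ℓ : ℕ, ℓ.Prime → W.IsGoodPrimeFor ℓ → ¬ ℓ ∣ M → qCoeff g ℓ = (W.apOfModel ℓ : ℂ)) :
    W.IsModularModelOfLevel W.conductorLevel := by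
  obtain ⟨M, hMN, hM0, g, hg, hgW⟩ :=
    Fermat.Agent.S58.Form.MinimalLevel.exists_newform_of_isModularModelOfLevel hN0 hN
  haveI : NeZero M := ⟨hM0⟩
  obtain ⟨hMC, hcoef⟩ := hmatch M hMN g hg hgW
  exact Fermat.Agent.S58.Stab.isModularModelOfLevel_of_dvd W hMC g hg.1
    (fun ℓ hℓ hgood hℓC => hcoef ℓ hℓ hgood (fun h => hℓC (h.trans hMC)))

end Fermat.Agent.S58.Top
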