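/-
S58 — final assembly (helper7, S58 integrator).

All six interface hypotheses of `Form/LevelMatchTop.isModularModelOfLevel_conductorLevel`
(helper26) are discharged by the blocks on main:

* `hS36`    := `Fermat.Agent.S36.result`                               (S36, frozen statement)
* `hG1/hG2` := `EC/Good/Final.goodInertiaHyp / goodFrobHyp`            (EC-G, helper4 + the heart
                                                                        `EC/FrobFinal`, helper10)
* `hU`      := `EC/Unip/Inertia.trace_det_inertia`                     (EC-U, helper8)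
* `hF4`     := `adicCompareHyp` below = `Form/Compare.exists_int_trace_det_of_charpoly`
               (helper3) on `W(ℚ̄)[λ^m]` (plug written by helper11, board #1930)
* `hdetcyc` := `EC/DetCyclo.det_eq_cycloChar_of_model'`                (EC-DET, helper28)
-/
import Mathlib
import Fermat.Agent.S36
import Fermat.Agent.S58.Form.LevelMatchTop
import Fermat.Agent.S58.Form.Compare
import Fermat.Agent.S58.Form.CompareHypOfEC
import Fermat.Agent.S58.EC.DetCyclo
import Fermat.Agent.S58.EC.Good.Final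
import Fermat.Agent.S58.EC.Unip.Inertia

set_option autoImplicit false
set_option linter.unusedSectionVars false
set_option linter.unusedVariables false
set_option linter.style.haveILetI false

open Polynomial WeierstrassCurve
open scoped WeierstrassCurve.Affine

noncomputable section

namespace Fermat.Agent.S58.Final

open Fermat.Agent.S58.Form.LevelMatch Fermat.Agent.S58.Form.CompareHypOfEC
open Fermat.Agent.S58.EC.DetCyclo

local notation "Qbar" => AlgebraicClosure ℚ
local notation "Γ" => (AlgebraicClosure ℚ ≃ₐ[ℚ] AlgebraicClosure ℚ)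

/-- **(I-F4)** the comparison (*) for the torsion of `W` (F4 core of helper3 on `W(ℚ̄)[λ^m]`). -/
theorem adicCompareHyp (W : WeierstrassCurve ℤ) (hΔ : W.Δ ≠ 0) (hG2 : GoodFrobHyp W) :
    AdicCompareHyp W := by
  intro lam hlam hlam2 A _ _ _ hlamA ρ T hfm m σ
  haveI := finite_torsionBy_pow W lam hΔ hlam2 m
  obtain ⟨c⟩ := Fermat.Agent.S58.EC.TorsionBasis.nonempty_basis (K := Qbar)
    (W.map (Int.castRingHom ℚ) : Affine ℚ)
    (Δ_baseChange_ne_zero W hΔ) hlam.out hlam2 (Nat.cast_ne_zero.mpr hlam.out.ne_zero) m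
  have hn : ((lam ^ m : ℕ) : A) ∈ IsLocalRing.maximalIdeal A ^ m := by
    rw [Nat.cast_pow]; exact Ideal.pow_mem_pow hlamA m
  refine Fermat.Agent.S58.Form.Compare.exists_int_trace_det_of_charpoly ρ m hn c
    (torsRep W (lam ^ m)) (galoisRepModuleEnd_factors _ _) (T ∪ badSet W lam)
    (fun l => W.apOfModel l) ?_ ?_ σ
  · intro l hl hlS P hP φ hφ
    rw [Finset.mem_union, not_or] at hlS
    exact hfm l hl hlS.1 P hP φ hφ
  · intro l hl hlS P hP φ hφ
    rw [Finset.mem_union, not_or] at hlS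
    obtain ⟨hlp, hgood⟩ := not_dvd_of_notMem_badSet W lam hΔ hl hlS.2
    exact hG2 l hl hgood P hP lam hlam.out hlam2 hlp.symm m φ hφ

/-- **(I-U)** inertia at a multiplicative prime is unipotent on `W[p^k]`. -/
theorem multInertiaHyp (W : WeierstrassCurve ℤ) (hΔ : W.Δ ≠ 0) : MultInertiaHyp W := by
  intro q hq hqΔ hc4 p hp hp2 hpq k A hA τ hτ
  exact Fermat.Agent.S58.EC.Unip.Inertia.trace_det_inertia W hΔ hq hqΔ hc4 hp hp2 hpq k
    (fun l hl hlp hgood B hB φ hφ =>
      (Fermat.Agent.S58.EC.Good.Final.trace_det_frobenius W hl hgood B hB hp hp2 hlp.symm k φ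
        hφ).2) hA hτ

/-- **EC-DET (E)** `det (σ | W[p]) = χ_cyc(σ)`. -/
theorem det_eq_cycloChar (W : WeierstrassCurve ℤ) (hΔ : W.Δ ≠ 0) (p : ℕ) [Fact p.Prime]
    (hp2 : p ≠ 2) (s : Γ) :
    LinearMap.det (Fermat.Agent.S58.Form.Hres.rW p W s) =
      ((ExtCitation.cycloChar p s : (ZMod p)ˣ) : ZMod p) :=
  det_eq_cycloChar_of_model' W p hΔ hp2
    (fun l hl hlp hgood B hB φ hφ =>
      (Fermat.Agent.S58.EC.Good.Final.trace_det_frobenius W hl hgood B hB
        (Fact.out : p.Prime) hp2 hlp.symm 1 φ hφ).2) s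

/-- **S58.** -/
theorem s58 (W : WeierstrassCurve ℤ) (hss : W.IsSemistableModel) (N : ℕ)
    (p : ℕ) [Fact p.Prime] (hp2 : p ≠ 2) (hirr : W.ModRepIsIrreducible p)
    (hp2N : ¬ p ^ 2 ∣ N)
    (hN : W.IsModularModelOfLevel N) (hbad : ∀ ℓ : ℕ, ℓ.Prime → (ℓ : ℤ) ∣ W.Δ → ℓ ∣ N)
    (hN3 : ∀ q : ℕ, q.Prime → ¬ q ^ 3 ∣ N) :
    W.IsModularModelOfLevel W.conductorLevel := by
  have hΔ : W.Δ ≠ 0 :=
    Fermat.Agent.S58.Top.delta_ne_zero W (Fermat.Agent.S58.Top.level_ne_zero hN3) hbad
  have hG2 : GoodFrobHyp W := Fermat.Agent.S58.EC.Good.Final.goodFrobHyp W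
  exact Fermat.Agent.S58.Form.LevelMatchTop.isModularModelOfLevel_conductorLevel W hss N p hp2
    hirr hp2N hN hbad hN3
    (fun hg lam _ S O' _ _ _ _ _ _ hlamO' hlam2 chig hchig iota hlamS hMS hres =>
      Fermat.Agent.S36.result hg lam S O' hlamO' hlam2 chig hchig iota hlamS hMS hres)
    (Fermat.Agent.S58.EC.Good.Final.goodInertiaHyp W) hG2 (multInertiaHyp W hΔ)
    (adicCompareHyp W hΔ hG2) (det_eq_cycloChar W hΔ p hp2)

end Fermat.Agent.S58.Final
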